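import Fermat.Agent.Dickman.Rho
import Fermat.Agent.Chen.MertensLower
import Fermat.Agent.LinearSieve.Mertens
import Mathlib.Analysis.SpecialFunctions.Log.Basic
import Mathlib.Topology.UniformSpace.HeineCantor

/-!
# Dickman's theorem

`Ψ (x, x ^ (1/u)) / x → ρ u`: Buchstab's identity `⌊x⌋ = Ψ (x, y) + ∑_{y < p ≤ x} Ψ (x / p, p)`,
the primes cut at `x ^ (1/v)` for a division of `[1, u]`, Mertens' theorem on each piece, and
induction on `u`; monotonicity in `u` makes the limit uniform on bounded sets.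
-/

set_option autoImplicit false

noncomputable section

namespace FA.Dickman

open Finset Filter MeasureTheory
open scoped Topology Classical

/-- The number of `n ≤ x` all whose prime factors are at most `y`. -/
def smoothCount (x y : ℝ) : ℕ :=
  #((Icc 1 ⌊x⌋₊).filter fun n : ℕ => ∀ q : ℕ, q.Prime → q ∣ n → (q : ℝ) ≤ y)

theorem smoothCount_le_floor (x y : ℝ) : smoothCount x y ≤ ⌊x⌋₊ :=
  (card_filter_le _ _).trans (le_of_eq (by simp))

theorem smoothCount_le {x : ℝ} (hx : 0 ≤ x) (y : ℝ) : (smoothCount x y : ℝ) ≤ x :=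
  (Nat.cast_le.2 (smoothCount_le_floor x y)).trans (Nat.floor_le hx)

theorem smoothCount_mono (x : ℝ) {y y' : ℝ} (h : y ≤ y') : smoothCount x y ≤ smoothCount x y' :=
  card_le_card fun n hn => by
    rw [mem_filter] at hn ⊢
    exact ⟨hn.1, fun q hq hqn => (hn.2 q hq hqn).trans h⟩

theorem smoothCount_eq_floor {x y : ℝ} (hx : 0 ≤ x) (h : x ≤ y) : smoothCount x y = ⌊x⌋₊ := by
  rw [smoothCount, filter_true_of_mem, Nat.card_Icc, Nat.add_sub_cancel]
  intro n hn q _ hqn
  rw [mem_Icc] at hn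
  exact ((Nat.cast_le.2 ((Nat.le_of_dvd hn.1 hqn).trans hn.2)).trans (Nat.floor_le hx)).trans h

/-- **Buchstab's identity.** -/
theorem floor_eq_smoothCount_add {x y : ℝ} (hx : 0 ≤ x) (hy : 0 ≤ y) :
    ⌊x⌋₊ = smoothCount x y +
      ∑ p ∈ (Ioc ⌊y⌋₊ ⌊x⌋₊).filter Nat.Prime, smoothCount (x / p) p := by
  obtain ⟨T, hT⟩ : ∃ T, T = ((Ioc ⌊y⌋₊ ⌊x⌋₊).filter Nat.Prime).sigma fun p : ℕ =>
      (Icc 1 ⌊x / p⌋₊).filter fun n : ℕ => ∀ q : ℕ, q.Prime → q ∣ n → (q : ℝ) ≤ p := ⟨_, rfl⟩
  have hcard : ∑ p ∈ (Ioc ⌊y⌋₊ ⌊x⌋₊).filter Nat.Prime, smoothCount (x / p) p = #T := by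
    rw [hT, card_sigma]
    rfl
  have hbij : #T = #((Icc 1 ⌊x⌋₊).filter fun n : ℕ => ¬ ∀ q : ℕ, q.Prime → q ∣ n → (q : ℝ) ≤ y) := by
    refine card_bij (fun a _ => a.1 * a.2) (fun a ha => ?_) (fun a ha b hb h => ?_) fun n hn => ?_
    · rw [hT, mem_sigma, mem_filter, mem_filter, mem_Ioc, mem_Icc] at ha
      obtain ⟨⟨⟨h1, -⟩, hp⟩, ⟨h2, h3⟩, -⟩ := ha
      have h4 : ((a.1 * a.2 : ℕ) : ℝ) ≤ x := by
        have := (Nat.cast_le.2 h3).trans (Nat.floor_le (div_nonneg hx (Nat.cast_nonneg a.1)))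
        rw [le_div_iff₀ (Nat.cast_pos.2 hp.pos)] at this
        push_cast
        linarith
      refine mem_filter.2 ⟨mem_Icc.2 ⟨Nat.mul_pos hp.pos h2, Nat.le_floor h4⟩, fun h => ?_⟩
      exact absurd (h a.1 hp (dvd_mul_right _ _)) (not_le.2 (Nat.lt_of_floor_lt h1))
    · rw [hT, mem_sigma, mem_filter, mem_filter, mem_Icc] at ha hb
      obtain ⟨⟨-, hp⟩, ⟨ha2, -⟩, hca⟩ := ha
      obtain ⟨⟨-, hq⟩, ⟨hb2, -⟩, hcb⟩ := hb
      have key : ∀ (p q n : ℕ), p.Prime → q.Prime → p ∣ q * n →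
          (∀ r : ℕ, r.Prime → r ∣ n → (r : ℝ) ≤ (q : ℝ)) → p ≤ q := fun p q n hp hq h hn => by
        rcases hp.dvd_mul.1 h with h' | h'
        · exact Nat.le_of_dvd hq.pos h'
        · exact_mod_cast hn p hp h'
      have e : a.1 = b.1 := le_antisymm (key _ _ _ hp hq (h ▸ dvd_mul_right _ _) hcb)
        (key _ _ _ hq hp (h.symm ▸ dvd_mul_right _ _) hca)
      rw [e] at h
      exact Sigma.ext e (heq_of_eq (Nat.eq_of_mul_eq_mul_left hq.pos h))
    · rw [mem_filter, mem_Icc] at hn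
      obtain ⟨⟨hn1, hn2⟩, hns⟩ := hn
      push Not at hns
      obtain ⟨q, hq, hqn, hqy⟩ := hns
      have hne : n.primeFactors.Nonempty := ⟨q, Nat.mem_primeFactors.2 ⟨hq, hqn, by omega⟩⟩
      obtain ⟨p, hp⟩ : ∃ p, p = n.primeFactors.max' hne := ⟨_, rfl⟩
      have hmax : ∀ r : ℕ, r.Prime → r ∣ n → r ≤ p := fun r hr hrn =>
        hp ▸ le_max' _ _ (Nat.mem_primeFactors.2 ⟨hr, hrn, by omega⟩)
      obtain ⟨hpp, hpn, -⟩ := Nat.mem_primeFactors.1 (hp ▸ max'_mem _ hne)
      obtain ⟨m, rfl⟩ := hpn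
      have hm : 0 < m := Nat.pos_of_ne_zero fun h => by simp [h] at hn1
      refine ⟨⟨p, m⟩, ?_, rfl⟩
      rw [hT, mem_sigma, mem_filter, mem_filter, mem_Ioc, mem_Icc]
      refine ⟨⟨⟨(Nat.floor_lt hy).2 (hqy.trans_le (Nat.cast_le.2 (hmax q hq hqn))),
        (Nat.le_mul_of_pos_right p hm).trans hn2⟩, hpp⟩, ⟨hm, Nat.le_floor ?_⟩,
        fun r hr hrm => Nat.cast_le.2 (hmax r hr (hrm.mul_left p))⟩
      rw [le_div_iff₀ (Nat.cast_pos.2 hpp.pos)]
      have := (Nat.cast_le.2 hn2).trans (Nat.floor_le hx)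
      push_cast at this
      linarith
  rw [hcard, hbij, smoothCount, Finset.card_filter_add_card_filter_not, Nat.card_Icc, Nat.add_sub_cancel]

theorem tendsto_log_floor_rpow {c : ℝ} (hc : 0 < c) :
    Tendsto (fun x : ℝ => Real.log (⌊x ^ c⌋₊ : ℕ) / Real.log x) atTop (𝓝 c) := by
  have h1 : Tendsto (fun x : ℝ => (⌊x ^ c⌋₊ : ℝ) / x ^ c) atTop (𝓝 1) :=
    tendsto_nat_floor_div_atTop.comp (tendsto_rpow_atTop hc)
  have h := ((h1.log one_ne_zero).div_atTop Real.tendsto_log_atTop).add_const c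
  rw [zero_add] at h
  refine h.congr' ?_
  filter_upwards [eventually_gt_atTop 1, h1.eventually_ne one_ne_zero] with x hx hne
  have hx0 : (0 : ℝ) < x := by linarith
  rw [Real.log_div (div_ne_zero_iff.1 hne).1 (Real.rpow_pos_of_pos hx0 c).ne', Real.log_rpow hx0, sub_div,
    mul_div_assoc, div_self (Real.log_pos hx).ne', mul_one, sub_add_cancel]

/-- The sum of `1 / p` over `x ^ a < p ≤ x ^ b`. -/
def primeRecip (a b x : ℝ) : ℝ := ∑ p ∈ (Ioc ⌊x ^ a⌋₊ ⌊x ^ b⌋₊).filter Nat.Prime, (p : ℝ)⁻¹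

/-- **Mertens' theorem between two powers.** -/
theorem tendsto_primeRecip {a b : ℝ} (ha : 0 < a) (hab : a ≤ b) :
    Tendsto (primeRecip a b) atTop (𝓝 (Real.log (b / a))) := by
  obtain ⟨C₁, hC₁, h1⟩ := LinearSieve.exists_sum_prime_inv_Ioc_le
  obtain ⟨C₂, hC₂, h2⟩ := Chen.exists_le_sum_prime_inv_Ioc
  obtain ⟨m, hm⟩ : ∃ m : ℝ → ℕ, m = fun x => ⌊x ^ a⌋₊ := ⟨_, rfl⟩
  obtain ⟨n, hn⟩ : ∃ n : ℝ → ℕ, n = fun x => ⌊x ^ b⌋₊ := ⟨_, rfl⟩
  have hmt : Tendsto m atTop atTop := hm ▸ tendsto_nat_floor_atTop.comp (tendsto_rpow_atTop ha)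
  have hlm : Tendsto (fun x => Real.log (m x : ℕ)) atTop atTop :=
    Real.tendsto_log_atTop.comp (tendsto_natCast_atTop_atTop.comp hmt)
  have hlim : Tendsto (fun x => Real.log (Real.log (n x : ℕ)) - Real.log (Real.log (m x : ℕ))) atTop
      (𝓝 (Real.log (b / a))) := by
    have hdiv := ((tendsto_log_floor_rpow (ha.trans_le hab)).div (tendsto_log_floor_rpow ha) ha.ne').log
      (div_pos (ha.trans_le hab) ha).ne'
    refine hdiv.congr' ?_
    filter_upwards [hmt.eventually_ge_atTop 2, eventually_gt_atTop 1] with x hx2 hx1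
    have hle : m x ≤ n x := by
      rw [hm, hn]
      exact Nat.floor_mono (Real.rpow_le_rpow_of_exponent_le hx1.le hab)
    have h3 : 0 < Real.log (m x : ℕ) := Real.log_pos (Nat.one_lt_cast.2 (by omega))
    have h4 : 0 < Real.log (n x : ℕ) := Real.log_pos (Nat.one_lt_cast.2 (by omega))
    simp only [Pi.div_apply, hm, hn] at h3 h4 ⊢
    rw [div_div_div_cancel_right₀ (Real.log_pos hx1).ne', Real.log_div h4.ne' h3.ne']
  have hlo := hlim.sub ((tendsto_const_nhds (x := C₂)).div_atTop hlm)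
  have hhi := hlim.add ((tendsto_const_nhds (x := C₁)).div_atTop hlm)
  rw [sub_zero] at hlo
  rw [add_zero] at hhi
  refine tendsto_of_tendsto_of_tendsto_of_le_of_le' hlo hhi ?_ ?_ <;>
    filter_upwards [hmt.eventually_ge_atTop 2, eventually_ge_atTop 1] with x hx2 hx1
  · simp only [hm, hn] at hx2 ⊢
    exact h2 _ _ hx2 (Nat.floor_mono (Real.rpow_le_rpow_of_exponent_le hx1 hab))
  · simp only [hm, hn] at hx2 ⊢
    exact h1 _ _ hx2 (Nat.floor_mono (Real.rpow_le_rpow_of_exponent_le hx1 hab))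

theorem sum_Ioc_pieces {M : Type*} [AddCommMonoid M] (F : ℕ → M) (c : ℕ → ℕ) (K : ℕ)
    (h : ∀ j < K, c (j + 1) ≤ c j) :
    c K ≤ c 0 ∧ ∑ p ∈ (Ioc (c K) (c 0)).filter Nat.Prime, F p =
      ∑ j ∈ range K, ∑ p ∈ (Ioc (c (j + 1)) (c j)).filter Nat.Prime, F p := by
  induction K with
  | zero => simp
  | succ K ih =>
    obtain ⟨hle, heq⟩ := ih fun j hj => h j (Nat.lt_succ_of_lt hj)
    have hK := h K (Nat.lt_succ_self K)
    refine ⟨hK.trans hle, ?_⟩
    rw [sum_range_succ, ← heq, sum_filter, sum_filter, sum_filter, ← sum_Ioc_consecutive _ hK hle]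
    exact add_comm _ _

/-- **One step of the induction.** -/
theorem tendsto_step {u N : ℝ} (hu : 1 < u) (hN : u - 1 ≤ N)
    (ih : ∀ ε > 0, ∀ᶠ X : ℝ in atTop, ∀ w : ℝ, 0 < w → w ≤ N →
      |(smoothCount X (X ^ (1 / w)) : ℝ) - rho w * X| ≤ ε * X) :
    Tendsto (fun x : ℝ => (smoothCount x (x ^ (1 / u)) : ℝ) / x) atTop (𝓝 (rho u)) := by
  obtain ⟨D, hD⟩ : ∃ D : ℝ → ℝ, D = fun x => (∑ p ∈ (Ioc ⌊x ^ (1 / u)⌋₊ ⌊x⌋₊).filter Nat.Prime,
      (smoothCount (x / p) p : ℝ)) / x := ⟨_, rfl⟩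
  obtain ⟨I, hI⟩ : ∃ I, I = ∫ v in (1 : ℝ)..u, rho (v - 1) / v := ⟨_, rfl⟩
  have hmain : Tendsto D atTop (𝓝 I) := by
    refine Metric.tendsto_nhds.2 fun η hη => ?_
    obtain ⟨K, hK⟩ : ∃ K : ℕ, 1 ≤ K ∧ 4 * (u - 1) / η ≤ K :=
      ⟨⌈4 * (u - 1) / η⌉₊ + 1, Nat.le_add_left _ _, by push_cast; linarith [Nat.le_ceil (4 * (u - 1) / η)]⟩
    obtain ⟨h, hh⟩ : ∃ h, h = (u - 1) / K := ⟨_, rfl⟩
    have hK0 : (0 : ℝ) < K := Nat.cast_pos.2 hK.1
    have hh0 : 0 < h := hh ▸ div_pos (by linarith) hK0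
    have hh4 : h ≤ η / 4 := by
      rw [hh, div_le_iff₀ hK0]
      have := (div_le_iff₀ hη).1 hK.2
      linarith
    obtain ⟨v, hv⟩ : ∃ v : ℕ → ℝ, v = fun j : ℕ => 1 + (j : ℝ) * h := ⟨_, rfl⟩
    have hv0 : v 0 = 1 := by simp [hv]
    have hvK : v K = u := by
      rw [hv, hh]
      field_simp
      ring
    have hvs : ∀ j, v (j + 1) = v j + h := fun j => by
      simp only [hv]
      push_cast
      ring
    have hv1 : ∀ j, 1 ≤ v j := fun j => by
      simp only [hv]
      have : 0 ≤ (j : ℝ) * h := by positivity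
      linarith
    have hvle : ∀ j ≤ K, v j ≤ u := fun j hj => by
      rw [← hvK]
      simp only [hv]
      have := mul_le_mul_of_nonneg_right (Nat.cast_le (α := ℝ).2 hj) hh0.le
      linarith
    obtain ⟨ε, hε, hεu⟩ : ∃ ε, 0 < ε ∧ ε * u ≤ η / 4 :=
      ⟨η / 4 / u, by positivity, (div_mul_cancel₀ _ (by linarith)).le⟩
    obtain ⟨L, hL⟩ : ∃ L : ℕ → ℝ, L = fun j => Real.log (v (j + 1) / v j) := ⟨_, rfl⟩
    have hL0 : ∀ j, 0 ≤ L j ∧ L j ≤ h := fun j => by
      have hvj : 0 < v j := zero_lt_one.trans_le (hv1 j)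
      rw [hL]
      refine ⟨Real.log_nonneg ?_, ?_⟩
      · rw [le_div_iff₀ hvj, one_mul, hvs]
        linarith
      · refine (Real.log_le_sub_one_of_pos (div_pos (zero_lt_one.trans_le (hv1 _)) hvj)).trans ?_
        rw [hvs, add_div, div_self hvj.ne', add_sub_cancel_left]
        exact div_le_self hh0.le (hv1 j)
    obtain ⟨up, hup⟩ : ∃ up : ℕ → ℝ, up = fun j => rho (v j - 1) + ε := ⟨_, rfl⟩
    obtain ⟨dn, hdn⟩ : ∃ dn : ℕ → ℝ, dn = fun j => if j = 0 then 0 else rho (v (j + 1) - 1) - ε :=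
      ⟨_, rfl⟩
    obtain ⟨S, hS⟩ : ∃ S : ℕ → ℝ → ℝ, S = fun j => primeRecip (1 / v (j + 1)) (1 / v j) := ⟨_, rfl⟩
    -- the bounds on the pieces
    obtain ⟨X₀, hX₀⟩ := eventually_atTop.1 (ih ε hε)
    have hbound : ∀ᶠ x : ℝ in atTop,
        ∑ j ∈ range K, dn j * S j x ≤ D x ∧ D x ≤ ∑ j ∈ range K, up j * S j x := by
      filter_upwards [(tendsto_rpow_atTop (show 0 < 1 - 1 / v 1 by
          rw [hvs 0, hv0, sub_pos, div_lt_one (by linarith)]
          linarith)).eventually_ge_atTop X₀, eventually_ge_atTop 1] with x hX hx1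
      have hx0 : (0 : ℝ) < x := by linarith
      obtain ⟨c, hc⟩ : ∃ c : ℕ → ℕ, c = fun j => ⌊x ^ (1 / v j)⌋₊ := ⟨_, rfl⟩
      have hanti : ∀ j < K, c (j + 1) ≤ c j := fun j _ => by
        rw [hc]
        refine Nat.floor_mono (Real.rpow_le_rpow_of_exponent_le hx1
          (one_div_le_one_div_of_le (zero_lt_one.trans_le (hv1 j)) ?_))
        rw [hvs]
        linarith
      have hDx : D x = ∑ j ∈ range K,
          ∑ p ∈ (Ioc (c (j + 1)) (c j)).filter Nat.Prime, (smoothCount (x / p) p : ℝ) / x := by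
        rw [hD, ← (sum_Ioc_pieces (fun p : ℕ => (smoothCount (x / p) p : ℝ) / x) c K hanti).2]
        simp only [hc, hvK, hv0, one_div, inv_one, Real.rpow_one, sum_div]
      rw [hDx]
      have hpiece : ∀ j ∈ range K, ∀ p ∈ (Ioc (c (j + 1)) (c j)).filter Nat.Prime,
          dn j * (p : ℝ)⁻¹ ≤ (smoothCount (x / p) p : ℝ) / x ∧
            (smoothCount (x / p) p : ℝ) / x ≤ up j * (p : ℝ)⁻¹ := by
        intro j hj p hp
        rw [mem_filter, mem_Ioc, hc] at hp
        obtain ⟨⟨hlo, hhi⟩, hpp⟩ := hp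
        have hp0 : (0 : ℝ) < p := Nat.cast_pos.2 hpp.pos
        have hlo' : x ^ (1 / v (j + 1)) < p := Nat.lt_of_floor_lt hlo
        have hhi' : (p : ℝ) ≤ x ^ (1 / v j) :=
          (Nat.cast_le.2 hhi).trans (Nat.floor_le (Real.rpow_nonneg hx0.le _))
        have hXp : 0 ≤ x / p := by positivity
        have htriv := smoothCount_le hXp (p : ℝ)
        have e : ∀ r : ℝ, r * (p : ℝ)⁻¹ = r * (x / p) / x := fun r => by field_simp
        rw [e, e, div_le_div_iff_of_pos_right hx0, div_le_div_iff_of_pos_right hx0]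
        rcases Nat.eq_zero_or_pos j with rfl | hj0
        · simp only [hdn, hup, hv0, sub_self, rho_eq_one zero_le_one, if_true, zero_mul]
          exact ⟨Nat.cast_nonneg _, htriv.trans (le_mul_of_one_le_left hXp (by linarith))⟩
        · have hjK : j + 1 ≤ K := mem_range.1 hj
          have hv1j : v 1 ≤ v j := by
            simp only [hv]
            have := mul_le_mul_of_nonneg_right (Nat.cast_le (α := ℝ).2 (show 1 ≤ j from hj0)) hh0.le
            linarith
          have hvj : 0 < v j - 1 := by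
            have : v 1 = 1 + h := by rw [hvs 0, hv0]
            linarith
          have hXX : X₀ ≤ x / p := by
            refine hX.trans ?_
            rw [le_div_iff₀ hp0, Real.rpow_sub hx0, Real.rpow_one, div_mul_eq_mul_div,
              div_le_iff₀ (Real.rpow_pos_of_pos hx0 _)]
            exact mul_le_mul_of_nonneg_left (hhi'.trans (Real.rpow_le_rpow_of_exponent_le hx1
              (one_div_le_one_div_of_le (zero_lt_one.trans_le (hv1 1)) hv1j))) hx0.le
          have hsmall : (x / p) ^ (1 / (v (j + 1) - 1)) ≤ p := by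
            rw [one_div, Real.rpow_inv_le_iff_of_pos hXp hp0.le (by rw [hvs]; linarith), Real.rpow_sub_one hp0.ne']
            refine div_le_div_of_nonneg_right ?_ hp0.le
            have := Real.rpow_le_rpow (Real.rpow_nonneg hx0.le _) hlo'.le
              (zero_le_one.trans (hv1 (j + 1)))
            rwa [one_div, Real.rpow_inv_rpow hx0.le (zero_lt_one.trans_le (hv1 _)).ne'] at this
          have hlarge : (p : ℝ) ≤ (x / p) ^ (1 / (v j - 1)) := by
            rw [one_div, Real.le_rpow_inv_iff_of_pos hp0.le hXp hvj, Real.rpow_sub_one hp0.ne']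
            refine div_le_div_of_nonneg_right ?_ hp0.le
            have := Real.rpow_le_rpow hp0.le hhi' (zero_le_one.trans (hv1 j))
            rwa [one_div, Real.rpow_inv_rpow hx0.le (zero_lt_one.trans_le (hv1 j)).ne'] at this
          constructor
          · have h1 := (abs_le.1 (hX₀ _ hXX (v (j + 1) - 1) (by rw [hvs]; linarith)
              (by linarith [hvle _ hjK]))).1
            simp only [hdn, if_neg hj0.ne']
            have h2 : (smoothCount (x / p) ((x / p) ^ (1 / (v (j + 1) - 1))) : ℝ) ≤ smoothCount (x / p) p :=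
              Nat.cast_le.2 (smoothCount_mono _ hsmall)
            linarith
          · have h1 := (abs_le.1 (hX₀ _ hXX (v j - 1) hvj
              (by linarith [hvle j (by omega)]))).2
            simp only [hup]
            have h2 : (smoothCount (x / p) p : ℝ) ≤ smoothCount (x / p) ((x / p) ^ (1 / (v j - 1))) :=
              Nat.cast_le.2 (smoothCount_mono _ hlarge)
            linarith
      constructor <;> refine sum_le_sum fun j hj => ?_
      · simp only [hS, primeRecip, mul_sum]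
        simp only [hc] at hpiece
        simp only [hc]
        exact sum_le_sum fun p hp => (hpiece j hj p hp).1
      · simp only [hS, primeRecip, mul_sum]
        simp only [hc] at hpiece
        simp only [hc]
        exact sum_le_sum fun p hp => (hpiece j hj p hp).2
    have hSlim : ∀ j, Tendsto (S j) atTop (𝓝 (L j)) := fun j => by
      have hvj : 0 < v j := zero_lt_one.trans_le (hv1 j)
      have hvj' : 0 < v (j + 1) := zero_lt_one.trans_le (hv1 _)
      have := tendsto_primeRecip (one_div_pos.2 hvj')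
        (one_div_le_one_div_of_le hvj (by rw [hvs]; linarith))
      rw [hS, hL]
      convert this using 2
      field_simp
    have hupLim := tendsto_finsetSum (range K) fun j _ => (hSlim j).const_mul (up j)
    have hdnLim := tendsto_finsetSum (range K) fun j _ => (hSlim j).const_mul (dn j)
    -- the Riemann sums
    obtain ⟨J, hJ⟩ : ∃ J : ℕ → ℝ, J = fun j => ∫ t in (v j)..(v (j + 1)), rho (t - 1) / t := ⟨_, rfl⟩
    have hcont : ∀ j, ContinuousOn (fun t : ℝ => rho (t - 1) / t) (Set.uIcc (v j) (v (j + 1))) := fun j =>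
      (continuous_rho.comp (by fun_prop)).continuousOn.div continuousOn_id fun t ht => by
        rw [Set.uIcc_of_le (by rw [hvs]; linarith)] at ht
        exact (zero_lt_one.trans_le ((hv1 j).trans ht.1)).ne'
    have hJsum : ∑ j ∈ range K, J j = I := by
      rw [hJ, intervalIntegral.sum_integral_adjacent_intervals fun j _ => (hcont j).intervalIntegrable,
        hv0, hvK, hI]
    have hJb : ∀ j, rho (v (j + 1) - 1) * L j ≤ J j ∧ J j ≤ rho (v j - 1) * L j := fun j => by
      have hvj : 0 < v j := zero_lt_one.trans_le (hv1 j)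
      have hle : v j ≤ v (j + 1) := by rw [hvs]; linarith
      have hc : ∀ r : ℝ, ∫ t in (v j)..(v (j + 1)), r / t = r * L j := fun r => by
        simp only [div_eq_mul_inv]
        rw [intervalIntegral.integral_const_mul, integral_inv_of_pos hvj (hvj.trans_le hle)]
        simp only [hL, div_eq_mul_inv]
      have hci : ∀ r : ℝ, IntervalIntegrable (fun t : ℝ => r / t) volume (v j) (v (j + 1)) := fun r =>
        (continuousOn_const.div continuousOn_id fun t ht => by
          rw [Set.uIcc_of_le hle] at ht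
          exact (hvj.trans_le ht.1).ne').intervalIntegrable
      rw [hJ, ← hc, ← hc]
      exact ⟨intervalIntegral.integral_mono_on hle (hci _) (hcont j).intervalIntegrable fun t ht =>
          div_le_div_of_nonneg_right (antitone_rho (by linarith [ht.2])) (hvj.trans_le ht.1).le,
        intervalIntegral.integral_mono_on hle (hcont j).intervalIntegrable (hci _) fun t ht =>
          div_le_div_of_nonneg_right (antitone_rho (by linarith [ht.1])) (hvj.trans_le ht.1).le⟩
    have hLsum : ∑ j ∈ range K, L j ≤ u := by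
      refine (sum_le_sum fun j _ => (hL0 j).2).trans ?_
      rw [sum_const, card_range, nsmul_eq_mul, hh, mul_div_cancel₀ _ hK0.ne']
      linarith
    have hdiff : ∑ j ∈ range K, (rho (v j - 1) - rho (v (j + 1) - 1)) * L j ≤ h := by
      refine (sum_le_sum fun j _ => mul_le_mul_of_nonneg_left (hL0 j).2
        (sub_nonneg.2 (antitone_rho (by rw [hvs]; linarith)))).trans ?_
      rw [← sum_mul, sum_range_sub' fun j => rho (v j - 1)]
      exact mul_le_of_le_one_left hh0.le (by linarith [rho_le_one (v 0 - 1), rho_pos (v K - 1)])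
    have hAup : ∑ j ∈ range K, up j * L j < I + η := by
      have h1 : ∑ j ∈ range K, up j * L j ≤ ∑ j ∈ range K,
          (J j + (rho (v j - 1) - rho (v (j + 1) - 1)) * L j + ε * L j) :=
        sum_le_sum fun j _ => by
          simp only [hup]
          linarith [(hJb j).1]
      rw [sum_add_distrib, sum_add_distrib, hJsum, ← mul_sum] at h1
      have := mul_le_mul_of_nonneg_left hLsum hε.le
      linarith
    have hAdn : I - η < ∑ j ∈ range K, dn j * L j := by
      have h1 : ∑ j ∈ range K, (J j - (rho (v j - 1) - rho (v (j + 1) - 1)) * L j - ε * L j -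
          if j = 0 then h else 0) ≤ ∑ j ∈ range K, dn j * L j :=
        sum_le_sum fun j _ => by
          simp only [hdn]
          split_ifs with hj
          · have h2 := mul_le_mul_of_nonneg_left (hL0 j).2 (rho_pos (v j - 1)).le
            have h3 := mul_nonneg (sub_nonneg.2 (antitone_rho
              (show v j - 1 ≤ v (j + 1) - 1 by rw [hvs]; linarith))) (hL0 j).1
            have h4 := mul_le_of_le_one_left hh0.le (rho_le_one (v j - 1))
            have h5 := mul_nonneg hε.le (hL0 j).1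
            linarith [(hJb j).2]
          · linarith [(hJb j).2]
      rw [sum_sub_distrib, sum_sub_distrib, sum_sub_distrib, hJsum, ← mul_sum, sum_ite_eq',
        if_pos (mem_range.2 hK.1)] at h1
      have := mul_le_mul_of_nonneg_left hLsum hε.le
      linarith
    filter_upwards [hbound, hupLim.eventually (eventually_lt_nhds hAup),
      hdnLim.eventually (eventually_gt_nhds hAdn)] with x hx hx1 hx2
    rw [Real.dist_eq, abs_lt]
    constructor <;> linarith [hx.1, hx.2]
  have h := (tendsto_nat_floor_div_atTop (R := ℝ)).sub hmain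
  rw [hI, ← rho_eq_integral hu.le] at h
  refine h.congr' ?_
  filter_upwards [eventually_ge_atTop 1] with x hx
  have e := floor_eq_smoothCount_add (x := x) (y := x ^ (1 / u)) (by linarith) (Real.rpow_nonneg (by linarith) _)
  have e' := congrArg (fun k : ℕ => (k : ℝ)) e
  push_cast at e'
  simp only [hD]
  rw [← sub_div]
  congr 1
  linarith

/-- **Uniformly on bounded sets.** -/
theorem eventually_abs_smoothCount_sub_le (U : ℝ) : ∀ ε > 0, ∀ᶠ X : ℝ in atTop, ∀ w : ℝ, 0 < w → w ≤ U →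
    |(smoothCount X (X ^ (1 / w)) : ℝ) - rho w * X| ≤ ε * X := by
  suffices H : ∀ n : ℕ, ∀ ε > 0, ∀ᶠ X : ℝ in atTop, ∀ w : ℝ, 0 < w → w ≤ (n : ℝ) + 1 →
      |(smoothCount X (X ^ (1 / w)) : ℝ) - rho w * X| ≤ ε * X by
    intro ε hε
    filter_upwards [H ⌈U⌉₊ ε hε] with X hX w hw hwU
    exact hX w hw (by linarith [Nat.le_ceil U])
  have hbase : ∀ ε > 0, ∀ᶠ X : ℝ in atTop, ∀ w : ℝ, 0 < w → w ≤ 1 →
      |(smoothCount X (X ^ (1 / w)) : ℝ) - rho w * X| ≤ ε * X := fun ε hε => by
    filter_upwards [eventually_ge_atTop 1, eventually_ge_atTop (1 / ε)] with X hX hXε w hw hw1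
    have h1 : X ≤ X ^ (1 / w) := Real.self_le_rpow_of_one_le hX (by rw [le_div_iff₀ hw, one_mul]; exact hw1)
    rw [smoothCount_eq_floor (by linarith) h1, rho_eq_one hw1, one_mul, abs_le]
    rw [div_le_iff₀ hε] at hXε
    constructor <;> linarith [Nat.floor_le (show 0 ≤ X by linarith), Nat.lt_floor_add_one X]
  intro n
  induction n with
  | zero => simpa using hbase
  | succ n ih =>
    intro ε hε
    obtain ⟨δ, hδ, hρδ⟩ := Metric.uniformContinuousOn_iff.1 ((isCompact_Icc (a := (1 : ℝ))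
      (b := (n : ℝ) + 2)).uniformContinuousOn_of_continuous continuous_rho.continuousOn) (ε / 2) (by linarith)
    obtain ⟨h, hh⟩ : ∃ h, h = δ / 2 := ⟨_, rfl⟩
    have hh0 : 0 < h := by linarith
    obtain ⟨w', hw'⟩ : ∃ w' : ℕ → ℝ, w' = fun i : ℕ => min (1 + (i : ℝ) * h) ((n : ℝ) + 2) := ⟨_, rfl⟩
    obtain ⟨M, hM⟩ : ∃ M : ℕ, M = ⌊((n : ℝ) + 1) / h⌋₊ + 2 := ⟨_, rfl⟩
    have hn0 : (0 : ℝ) ≤ n := Nat.cast_nonneg n
    have hw1 : ∀ i, 1 ≤ w' i ∧ w' i ≤ (n : ℝ) + 2 := fun i => by
      rw [hw']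
      exact ⟨le_min (by linarith [mul_nonneg (Nat.cast_nonneg (α := ℝ) i) hh0.le]) (by linarith),
        min_le_right _ _⟩
    have hpt : ∀ i ∈ range M, ∀ᶠ X : ℝ in atTop,
        |(smoothCount X (X ^ (1 / w' i)) : ℝ) - rho (w' i) * X| ≤ ε / 2 * X := fun i _ => by
      rcases (hw1 i).1.eq_or_lt with h1 | h1
      · filter_upwards [hbase (ε / 2) (by linarith)] with X hX
        exact hX _ (by linarith) h1.ge
      · have hlim := tendsto_step h1 (by linarith [(hw1 i).2]) ih
        filter_upwards [Metric.tendsto_nhds.1 hlim (ε / 2) (by linarith), eventually_gt_atTop 0] with X hX hX0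
        rw [Real.dist_eq, div_sub' hX0.ne', abs_div, abs_of_pos hX0, div_lt_iff₀ hX0] at hX
        rw [mul_comm (rho (w' i))]
        exact hX.le
    filter_upwards [(eventually_all_finset (range M)).2 hpt, hbase ε hε, eventually_ge_atTop 1] with X hX hX1 hXone
    intro w hw hwn
    push_cast at hwn
    rcases le_or_gt w 1 with hw1' | hw1'
    · exact hX1 w hw hw1'
    obtain ⟨i, hi⟩ : ∃ i, i = ⌊(w - 1) / h⌋₊ := ⟨_, rfl⟩
    have hi1 : (i : ℝ) * h ≤ w - 1 := by
      have := Nat.floor_le (show 0 ≤ (w - 1) / h from div_nonneg (by linarith) hh0.le)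
      rwa [← hi, le_div_iff₀ hh0] at this
    have hi2 : w - 1 < ((i : ℝ) + 1) * h := by
      have := Nat.lt_floor_add_one ((w - 1) / h)
      rwa [← hi, div_lt_iff₀ hh0] at this
    have hiM : i + 1 < M := by
      have : i ≤ ⌊((n : ℝ) + 1) / h⌋₊ :=
        hi ▸ Nat.floor_mono (div_le_div_of_nonneg_right (by linarith) hh0.le)
      omega
    have hlo : w' i ≤ w := by
      rw [hw']
      exact (min_le_left _ _).trans (by linarith)
    have hhi : w ≤ w' (i + 1) := by
      rw [hw']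
      refine le_min ?_ (by linarith)
      push_cast
      linarith
    have hwmem : w ∈ Set.Icc (1 : ℝ) ((n : ℝ) + 2) := ⟨hw1'.le, by linarith⟩
    have hgap : w' (i + 1) - w' i ≤ h := by
      rw [hw']
      simp only
      push_cast
      rcases le_total (1 + (i : ℝ) * h) ((n : ℝ) + 2) with hc | hc
      · rw [min_eq_left hc]
        linarith [min_le_left (1 + ((i : ℝ) + 1) * h) ((n : ℝ) + 2)]
      · rw [min_eq_right hc]
        linarith [min_le_right (1 + ((i : ℝ) + 1) * h) ((n : ℝ) + 2)]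
    have hd : ∀ t ∈ Set.Icc (w' i) (w' (i + 1)), |rho t - rho w| < ε / 2 := fun t ht => by
      have := hρδ t ⟨(hw1 i).1.trans ht.1, ht.2.trans (hw1 _).2⟩ w hwmem (by
        rw [Real.dist_eq, abs_lt]
        constructor <;> linarith [ht.1, ht.2])
      rwa [Real.dist_eq] at this
    have hd1 := abs_lt.1 (hd (w' i) ⟨le_rfl, hlo.trans hhi⟩)
    have hd2 := abs_lt.1 (hd (w' (i + 1)) ⟨hlo.trans hhi, le_rfl⟩)
    have hm1 : (smoothCount X (X ^ (1 / w)) : ℝ) ≤ smoothCount X (X ^ (1 / w' i)) :=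
      Nat.cast_le.2 (smoothCount_mono _ (Real.rpow_le_rpow_of_exponent_le hXone
        (one_div_le_one_div_of_le (by linarith [(hw1 i).1]) hlo)))
    have hm2 : (smoothCount X (X ^ (1 / w' (i + 1))) : ℝ) ≤ smoothCount X (X ^ (1 / w)) :=
      Nat.cast_le.2 (smoothCount_mono _ (Real.rpow_le_rpow_of_exponent_le hXone
        (one_div_le_one_div_of_le hw hhi)))
    have hX0 : 0 ≤ X := by linarith
    have g1 := mul_le_mul_of_nonneg_right hd1.2.le hX0
    have g2 := mul_le_mul_of_nonneg_right hd2.1.le hX0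
    have g3 := abs_le.1 (hX i (mem_range.2 (by omega)))
    have g4 := abs_le.1 (hX (i + 1) (mem_range.2 hiM))
    rw [abs_le]
    constructor <;> linarith

/-- **Dickman's theorem.** -/
theorem tendsto_smoothCount {u : ℝ} (hu : 0 < u) :
    Tendsto (fun x : ℝ => (smoothCount x (x ^ (1 / u)) : ℝ) / x) atTop (𝓝 (rho u)) := by
  refine Metric.tendsto_nhds.2 fun ε hε => ?_
  filter_upwards [eventually_abs_smoothCount_sub_le u (ε / 2) (by linarith), eventually_gt_atTop 0] with X hX hX0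
  rw [Real.dist_eq, div_sub' hX0.ne', abs_div, abs_of_pos hX0, div_lt_iff₀ hX0, mul_comm X]
  exact lt_of_le_of_lt (hX u hu le_rfl) (by nlinarith)

end FA.Dickman
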