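import Mathlib.MeasureTheory.Integral.IntervalIntegral.FundThmCalculus
import Mathlib.Analysis.SpecialFunctions.Integrals.Basic
import Mathlib.Analysis.SpecialFunctions.Gamma.BohrMollerup
import Mathlib.Tactic

/-!
# Dickman's function

`ρ u = 1` for `u ≤ 1`, `ρ u = 1 - ∫_1^u ρ (v - 1) / v` beyond: the iterates of the right side are
stationary on bounded sets. It satisfies `u ρ u = ∫_(u-1)^u ρ`, is positive, antitone, and at most
`1 / Γ (u + 1)`.
-/

set_option autoImplicit false

noncomputable section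

namespace FA.Dickman

open Set MeasureTheory Filter
open scoped Topology

/-- The iterates. -/
def rhoStep : ℕ → ℝ → ℝ
  | 0, _ => 1
  | n + 1, u => 1 - ∫ v in (1 : ℝ)..max 1 u, rhoStep n (v - 1) / max 1 v

/-- **Dickman's function.** -/
def rho (u : ℝ) : ℝ := rhoStep ⌈u⌉₊ u

theorem continuous_rhoStep (n : ℕ) : Continuous (rhoStep n) := by
  induction n with
  | zero => exact continuous_const
  | succ n ih =>
    have hint : Continuous fun v : ℝ => rhoStep n (v - 1) / max 1 v :=
      (ih.comp (by fun_prop)).div (by fun_prop) fun v => (zero_lt_one.trans_le (le_max_left 1 v)).ne'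
    exact continuous_const.sub
      ((intervalIntegral.continuous_primitive (fun a b => hint.intervalIntegrable a b) 1).comp
        (by fun_prop))

theorem rhoStep_succ_eq {n : ℕ} {u : ℝ} (hu : u ≤ n) : rhoStep (n + 1) u = rhoStep n u := by
  induction n generalizing u with
  | zero =>
    rw [Nat.cast_zero] at hu
    simp [rhoStep, max_eq_left (hu.trans zero_le_one)]
  | succ n ih =>
    rw [Nat.cast_succ] at hu
    show 1 - _ = 1 - _
    congr 1
    refine intervalIntegral.integral_congr fun v hv => ?_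
    rw [uIcc_of_le (le_max_left 1 u)] at hv
    rcases le_max_iff.1 hv.2 with h | h
    · rw [ih (show v - 1 ≤ (n : ℝ) by linarith [Nat.cast_nonneg (α := ℝ) n])]
    · rw [ih (show v - 1 ≤ (n : ℝ) by linarith)]

theorem rhoStep_eq {n m : ℕ} (hnm : n ≤ m) {u : ℝ} (hu : u ≤ n) : rhoStep m u = rhoStep n u := by
  induction m, hnm using Nat.le_induction with
  | base => rfl
  | succ m hm ih => rw [rhoStep_succ_eq (hu.trans (Nat.cast_le.2 hm)), ih]

theorem rho_eq_step {n : ℕ} {u : ℝ} (hu : u ≤ n) : rho u = rhoStep n u :=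
  (rhoStep_eq (Nat.ceil_le.2 hu) (Nat.le_ceil u)).symm

theorem continuous_rho : Continuous rho := by
  refine continuous_iff_continuousAt.2 fun u => ?_
  obtain ⟨n, hn⟩ := exists_nat_gt u
  exact (continuous_rhoStep n).continuousAt.congr
    ((eventually_le_nhds hn).mono fun v hv => (rho_eq_step hv).symm)

theorem continuous_kernel : Continuous fun v : ℝ => rho (v - 1) / max 1 v :=
  (continuous_rho.comp (by fun_prop)).div (by fun_prop)
    fun v => (zero_lt_one.trans_le (le_max_left 1 v)).ne'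

theorem rho_eq (u : ℝ) : rho u = 1 - ∫ v in (1 : ℝ)..max 1 u, rho (v - 1) / max 1 v := by
  rw [rho_eq_step (n := ⌈max 1 u⌉₊ + 1) (u := u)
    (((le_max_right 1 u).trans (Nat.le_ceil _)).trans (by push_cast; linarith))]
  show 1 - _ = _
  congr 1
  refine intervalIntegral.integral_congr fun v hv => ?_
  rw [uIcc_of_le (le_max_left 1 u)] at hv
  rw [rho_eq_step (show v - 1 ≤ (⌈max 1 u⌉₊ : ℝ) by linarith [Nat.le_ceil (max 1 u), hv.2])]

theorem rho_eq_one {u : ℝ} (hu : u ≤ 1) : rho u = 1 := by
  rw [rho_eq, max_eq_left hu, intervalIntegral.integral_same, sub_zero]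

theorem rho_eq_integral {u : ℝ} (hu : 1 ≤ u) :
    rho u = 1 - ∫ v in (1 : ℝ)..u, rho (v - 1) / v := by
  rw [rho_eq, max_eq_right hu]
  congr 1
  refine intervalIntegral.integral_congr fun v hv => ?_
  rw [uIcc_of_le hu] at hv
  simp only [max_eq_right hv.1]

/-- `ρ u = 1 - log u` on `[1, 2]`. -/
theorem rho_eq_one_sub_log {u : ℝ} (hu : 1 ≤ u) (hu2 : u ≤ 2) : rho u = 1 - Real.log u := by
  rw [rho_eq_integral hu]
  congr 1
  rw [intervalIntegral.integral_congr (g := fun v : ℝ => v⁻¹) fun v hv => ?_,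
    integral_inv_of_pos one_pos (by linarith), div_one]
  rw [uIcc_of_le hu] at hv
  simp only
  rw [rho_eq_one (by linarith [hv.2]), one_div]

theorem hasDerivAt_rho {u : ℝ} (hu : 1 < u) : HasDerivAt rho (-(rho (u - 1) / u)) u := by
  have h := (intervalIntegral.integral_hasDerivAt_right (continuous_kernel.intervalIntegrable 1 u)
    (continuous_kernel.stronglyMeasurableAtFilter _ _) continuous_kernel.continuousAt).const_sub 1
  rw [max_eq_right hu.le] at h
  refine h.congr_of_eventuallyEq ?_
  filter_upwards [eventually_gt_nhds hu] with v hv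
  rw [rho_eq, max_eq_right hv.le]

/-- **The equation of Dickman and de Bruijn.** -/
theorem mul_rho_eq {u : ℝ} (hu : 1 ≤ u) : u * rho u = ∫ v in (u - 1)..u, rho v := by
  obtain ⟨P, hP⟩ : ∃ P : ℝ → ℝ, P = fun x => ∫ v in (0 : ℝ)..x, rho v := ⟨_, rfl⟩
  have hPd : ∀ x, HasDerivAt P (rho x) x := fun x => hP ▸
    continuous_rho.integral_hasStrictDerivAt (0 : ℝ) x |>.hasDerivAt
  obtain ⟨g, hg⟩ : ∃ g : ℝ → ℝ, g = fun x => x * rho x - (P x - P (x - 1)) := ⟨_, rfl⟩
  have e : ∀ x : ℝ, P x - P (x - 1) = ∫ v in (x - 1)..x, rho v := fun x => hP ▸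
    intervalIntegral.integral_interval_sub_left (continuous_rho.intervalIntegrable _ _)
      (continuous_rho.intervalIntegrable _ _)
  have hPc : Continuous P := continuous_iff_continuousAt.2 fun x => (hPd x).continuousAt
  rcases hu.eq_or_lt with rfl | hlt
  · rw [rho_eq_one le_rfl, sub_self, intervalIntegral.integral_congr (g := fun _ => (1 : ℝ)) fun v hv => ?_]
    · simp
    · rw [uIcc_of_le zero_le_one] at hv
      exact rho_eq_one hv.2
  · have hgc : ContinuousOn g (Icc 1 u) := by
      rw [hg]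
      exact ((continuous_id.mul continuous_rho).sub
        (hPc.sub (hPc.comp (by fun_prop)))).continuousOn
    obtain ⟨x, hx, hx'⟩ := exists_hasDerivAt_eq_slope g (fun _ => 0) hlt hgc fun x hx => by
      rw [hg]
      refine (((hasDerivAt_id x).mul (hasDerivAt_rho hx.1)).sub
        ((hPd x).sub ((hPd (x - 1)).comp x ((hasDerivAt_id x).sub_const 1)))).congr_deriv ?_
      have : x ≠ 0 := by linarith [hx.1]
      simp only [id_eq]
      field_simp
      ring
    have h1 : g u = g 1 := by
      rw [eq_comm, div_eq_zero_iff] at hx'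
      rcases hx' with h | h <;> linarith
    rw [hg] at h1
    simp only [rho_eq_one le_rfl, mul_one, e] at h1
    have h2 : ∫ v in (1 - 1 : ℝ)..1, rho v = 1 := by
      rw [sub_self, intervalIntegral.integral_congr (g := fun _ => (1 : ℝ)) fun v hv => ?_]
      · simp
      · rw [uIcc_of_le zero_le_one] at hv
        exact rho_eq_one hv.2
    linarith

theorem rho_pos (u : ℝ) : 0 < rho u := by
  by_contra hcon
  obtain ⟨S, hS⟩ : ∃ S : Set ℝ, S = Ici 1 ∩ rho ⁻¹' Iic 0 := ⟨_, rfl⟩
  have huS : u ∈ S := by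
    refine hS ▸ ⟨?_, not_lt.1 hcon⟩
    by_contra h
    exact hcon (rho_eq_one (le_of_not_ge h) ▸ one_pos)
  have hbdd : BddBelow S := ⟨1, fun x hx => (hS ▸ hx : x ∈ Ici (1 : ℝ) ∩ rho ⁻¹' Iic 0).1⟩
  have ht : sInf S ∈ S :=
    (hS ▸ isClosed_Ici.inter (isClosed_Iic.preimage continuous_rho) : IsClosed S).csInf_mem ⟨u, huS⟩ hbdd
  rw [hS] at ht
  obtain ⟨ht1, ht0⟩ := ht
  rw [← hS] at ht1 ht0
  have hpos : ∀ v, v < sInf S → 0 < rho v := fun v hv => by
    rcases le_or_gt v 1 with h | h
    · exact rho_eq_one h ▸ one_pos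
    · exact lt_of_not_ge fun h' => (notMem_of_lt_csInf hv hbdd) (hS ▸ ⟨h.le, h'⟩)
  have hint : 0 < ∫ v in (sInf S - 1)..sInf S, rho v :=
    intervalIntegral.intervalIntegral_pos_of_pos_on (continuous_rho.intervalIntegrable _ _)
      (fun v hv => hpos v hv.2) (by linarith)
  rw [← mul_rho_eq ht1] at hint
  nlinarith [mem_Ici.1 ht1, mem_Iic.1 (mem_preimage.1 ht0)]

theorem antitone_rho : Antitone rho := by
  intro a b hab
  rw [rho_eq a, rho_eq b, sub_le_sub_iff_left]
  rw [← intervalIntegral.integral_add_adjacent_intervals (b := max 1 a)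
    (continuous_kernel.intervalIntegrable 1 _) (continuous_kernel.intervalIntegrable _ (max 1 b))]
  refine le_add_of_nonneg_right (intervalIntegral.integral_nonneg (max_le_max le_rfl hab) fun v _ => ?_)
  exact div_nonneg (rho_pos _).le (zero_le_one.trans (le_max_left 1 v))

theorem rho_le_one (u : ℝ) : rho u ≤ 1 := by
  rw [← rho_eq_one (u := min u 1) (min_le_right _ _)]
  exact antitone_rho (min_le_left _ _)

/-- `ρ u ≤ 1 / Γ (u + 1)`. -/
theorem rho_le_inv_Gamma {u : ℝ} (hu : 0 ≤ u) : rho u ≤ 1 / Real.Gamma (u + 1) := by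
  obtain ⟨n, hn⟩ : ∃ n : ℕ, u ≤ n + 1 := ⟨⌈u⌉₊, by linarith [Nat.le_ceil u]⟩
  induction n generalizing u with
  | zero =>
    rw [Nat.cast_zero, zero_add] at hn
    have hΓ : Real.Gamma (u + 1) ≤ 1 := by
      have h := Real.convexOn_Gamma.2 (show (1 : ℝ) ∈ Ioi (0 : ℝ) from Set.mem_Ioi.2 one_pos)
        (show (2 : ℝ) ∈ Ioi (0 : ℝ) from Set.mem_Ioi.2 two_pos) (show 0 ≤ 1 - u by linarith) hu (by ring)
      simp only [smul_eq_mul, Real.Gamma_one, Real.Gamma_two, mul_one] at h
      rw [show u + 1 = (1 - u) + u * 2 by ring]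
      linarith
    rw [rho_eq_one hn, le_div_iff₀ (Real.Gamma_pos_of_pos (by linarith)), one_mul]
    exact hΓ
  | succ n ih =>
    rw [Nat.cast_succ] at hn
    rcases le_or_gt u ((n : ℝ) + 1) with h | h
    · exact ih hu h
    · have hu1 : 1 ≤ u := by linarith [Nat.cast_nonneg (α := ℝ) n]
      have h1 : u * rho u ≤ rho (u - 1) := by
        rw [mul_rho_eq hu1]
        refine (intervalIntegral.integral_mono_on (by linarith) (continuous_rho.intervalIntegrable _ _)
          intervalIntegrable_const fun v hv => antitone_rho hv.1).trans (le_of_eq ?_)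
        simp
      have h2 := h1.trans (ih (by linarith) (by linarith))
      rw [sub_add_cancel] at h2
      rw [Real.Gamma_add_one (by linarith), le_div_iff₀ (mul_pos (by linarith)
        (Real.Gamma_pos_of_pos (by linarith)))]
      rw [le_div_iff₀ (Real.Gamma_pos_of_pos (by linarith))] at h2
      linarith

end FA.Dickman
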